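import Mathlib

/-!
# Row LT, tower T7, leaf T7.14.2 (`AbelC`), part 1: the Mellin transform of a weight -- helper362

OFF-MAIN.  Mathlib only.  For an admissible weight `G` (`Wt362`: nonnegative and antitone on
`(0, ∞)`, positive somewhere, integrable on `(0, 1]`, `G T ≤ C T^{-1-η}` on `[1, ∞)`):

* `Wt362.aesm`        : `G` is a.e. strongly measurable on `(0, ∞)`;
* `Wt362.mellin_int`  : `G T · T^{s-1}` is integrable on `(0, ∞)` for `1 ≤ s < 1 + η`;
* `Wt362.mellin_tendsto` : `M(s) = ∫₀^∞ G T · T^{s-1} dT → M(1) = ∫₀^∞ G` as `s → 1⁺`;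
* `Wt362.mass_pos`    : `∫₀^∞ G > 0`.
-/

set_option autoImplicit false

open MeasureTheory Filter Topology Set

noncomputable section

namespace Fermat.Agent.LT.T7.H362

/-- Admissible weights, with the decay constants as data-free existence statement split off:
`G ≥ 0` and antitone on `(0, ∞)`, positive somewhere, integrable on `(0, 1]`, and
`G T ≤ C T^{-(1+η)}` for `T ≥ 1`. -/
structure Wt362 (G : ℝ → ℝ) (C η : ℝ) : Prop where
  nonneg : ∀ T : ℝ, 0 < T → 0 ≤ G T
  anti : AntitoneOn G (Ioi 0)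
  pos : ∃ T : ℝ, 0 < T ∧ 0 < G T
  int0 : IntegrableOn G (Ioc 0 1)
  eta_pos : 0 < η
  decay : ∀ T : ℝ, 1 ≤ T → G T ≤ C * T ^ (-(1 + η))

namespace Wt362

variable {G : ℝ → ℝ} {C η : ℝ}

theorem C_nonneg (h : Wt362 G C η) : 0 ≤ C := by
  have h1 := h.decay 1 le_rfl
  have h2 := h.nonneg 1 one_pos
  simp only [Real.one_rpow, mul_one] at h1
  linarith

theorem aesm (h : Wt362 G C η) : AEStronglyMeasurable G (volume.restrict (Ioi 0)) :=
  (aemeasurable_restrict_of_antitoneOn measurableSet_Ioi h.anti).aestronglyMeasurable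

theorem aesm_mul (h : Wt362 G C η) (s : ℝ) :
    AEStronglyMeasurable (fun T : ℝ => G T * T ^ (s - 1)) (volume.restrict (Ioi 0)) :=
  h.aesm.mul (measurable_id.pow_const (s - 1)).aestronglyMeasurable

/-- `G T · T^{s-1}` is integrable on `(0, ∞)` for `1 ≤ s < 1 + η`. -/
theorem mellin_int (h : Wt362 G C η) {s : ℝ} (hs1 : 1 ≤ s) (hs2 : s < 1 + η) :
    IntegrableOn (fun T : ℝ => G T * T ^ (s - 1)) (Ioi 0) := by
  rw [← Ioc_union_Ioi_eq_Ioi (zero_le_one' ℝ)]
  refine IntegrableOn.union ?_ ?_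
  · -- on `(0, 1]`
    refine Integrable.mono' h.int0.norm ((h.aesm_mul s).mono_set Ioc_subset_Ioi_self) ?_
    refine (ae_restrict_iff' measurableSet_Ioc).mpr (Eventually.of_forall fun T hT => ?_)
    have h1 : T ^ (s - 1) ≤ 1 := Real.rpow_le_one hT.1.le hT.2 (by linarith)
    have h2 : 0 ≤ T ^ (s - 1) := Real.rpow_nonneg hT.1.le _
    rw [norm_mul, Real.norm_of_nonneg h2]
    exact mul_le_of_le_one_right (norm_nonneg _) h1
  · -- on `(1, ∞)`
    have hint : IntegrableOn (fun T : ℝ => C * T ^ (s - 2 - η)) (Ioi 1) :=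
      (integrableOn_Ioi_rpow_of_lt (by linarith) one_pos).const_mul C
    refine Integrable.mono' hint ((h.aesm_mul s).mono_set (Ioi_subset_Ioi zero_le_one)) ?_
    refine (ae_restrict_iff' measurableSet_Ioi).mpr (Eventually.of_forall fun T hT => ?_)
    have hT0 : 0 < T := lt_trans one_pos hT
    have h2 : 0 ≤ T ^ (s - 1) := Real.rpow_nonneg hT0.le _
    have h3 := h.nonneg T hT0
    have h4 := h.decay T (le_of_lt hT)
    rw [Real.norm_of_nonneg (mul_nonneg h3 h2)]
    calc G T * T ^ (s - 1) ≤ C * T ^ (-(1 + η)) * T ^ (s - 1) :=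
          mul_le_mul_of_nonneg_right h4 h2
      _ = C * T ^ (s - 2 - η) := by
          rw [mul_assoc, ← Real.rpow_add hT0]
          congr 2
          ring

theorem int_Ioi (h : Wt362 G C η) : IntegrableOn G (Ioi 0) := by
  have h1 := h.mellin_int le_rfl (by linarith [h.eta_pos])
  refine h1.congr_fun (fun T _ => ?_) measurableSet_Ioi
  simp

/-- The total mass of a weight is positive. -/
theorem mass_pos (h : Wt362 G C η) : 0 < ∫ T in Ioi 0, G T := by
  obtain ⟨T₀, hT₀, hG₀⟩ := h.pos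
  have h1 : ∫ T in Ioc 0 T₀, G T₀ = T₀ * G T₀ := by
    rw [setIntegral_const]
    simp [hT₀.le]
  have h2 : ∫ T in Ioc 0 T₀, G T₀ ≤ ∫ T in Ioc 0 T₀, G T := by
    refine setIntegral_mono_on (integrableOn_const (by simp)) (h.int_Ioi.mono_set Ioc_subset_Ioi_self)
      measurableSet_Ioc (fun T hT => ?_)
    exact h.anti hT.1 hT₀ hT.2
  have h3 : ∫ T in Ioc 0 T₀, G T ≤ ∫ T in Ioi 0, G T := by
    refine setIntegral_mono_set h.int_Ioi ?_ (Eventually.of_forall Ioc_subset_Ioi_self)
    exact (ae_restrict_iff' measurableSet_Ioi).mpr (Eventually.of_forall fun T hT => h.nonneg T hT)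
  have h4 : 0 < T₀ * G T₀ := mul_pos hT₀ hG₀
  linarith

/-- `M(s) → M(1)` as `s → 1⁺`. -/
theorem mellin_tendsto (h : Wt362 G C η) :
    Tendsto (fun s : ℝ => ∫ T in Ioi 0, G T * T ^ (s - 1)) (𝓝[>] 1)
      (𝓝 (∫ T in Ioi 0, G T)) := by
  have hη := h.eta_pos
  have hb1 := h.mellin_int le_rfl (by linarith)
  have hb2 := h.mellin_int (s := 1 + η / 2) (by linarith) (by linarith)
  refine tendsto_integral_filter_of_dominated_convergence
    (fun T => G T * T ^ ((1 : ℝ) - 1) + G T * T ^ (1 + η / 2 - 1)) ?_ ?_ (hb1.add hb2) ?_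
  · exact Eventually.of_forall fun s => h.aesm_mul s
  · have hev : ∀ᶠ s in 𝓝[>] (1 : ℝ), 1 < s ∧ s < 1 + η / 2 := by
      refine (eventually_mem_nhdsWithin).and ?_
      exact eventually_nhdsWithin_of_eventually_nhds (eventually_lt_nhds (by linarith))
    filter_upwards [hev] with s hs
    refine (ae_restrict_iff' measurableSet_Ioi).mpr (Eventually.of_forall fun T hT => ?_)
    have hT0 : (0 : ℝ) < T := hT
    have h3 := h.nonneg T hT0
    have h2 : 0 ≤ T ^ (s - 1) := Real.rpow_nonneg hT0.le _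
    rw [Real.norm_of_nonneg (mul_nonneg h3 h2), ← mul_add]
    refine mul_le_mul_of_nonneg_left ?_ h3
    rcases le_total T 1 with hT1 | hT1
    · have h5 : T ^ (s - 1) ≤ 1 := Real.rpow_le_one hT0.le hT1 (by linarith)
      have h6 : 0 ≤ T ^ (1 + η / 2 - 1) := Real.rpow_nonneg hT0.le _
      simp only [sub_self, Real.rpow_zero]
      linarith
    · have h5 : T ^ (s - 1) ≤ T ^ (1 + η / 2 - 1) :=
        Real.rpow_le_rpow_of_exponent_le hT1 (by linarith)
      simp only [sub_self, Real.rpow_zero]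
      linarith
  · refine (ae_restrict_iff' measurableSet_Ioi).mpr (Eventually.of_forall fun T hT => ?_)
    have hT0 : (0 : ℝ) < T := hT
    have hc : ContinuousAt (fun s : ℝ => G T * T ^ (s - 1)) 1 := by
      refine continuousAt_const.mul ?_
      exact (Real.continuousAt_const_rpow hT0.ne').comp (continuousAt_id.sub continuousAt_const)
    have := hc.tendsto
    simp only [sub_self, Real.rpow_zero, mul_one] at this
    exact tendsto_nhdsWithin_of_tendsto_nhds this

end Wt362

end Fermat.Agent.LT.T7.H362
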