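import Mathlib
import Fermat.Agent.LT.T7.H362.AbelWeight

/-!
# Row LT, tower T7, leaf T7.14.2 (`AbelC`), part 2: the smoothed sums -- helper362

OFF-MAIN.  Mathlib only.  `ι` a countable index set, `N : ι → ℝ`, `c : ι → ℂ` with
`c i = 0 ∨ 1 ≤ N i`, `∑ ‖c i‖ N i ^ (-s) < ∞` for `s > 1`, `G` a weight.  With
`S(Y) = ∑ c i G(Y N i)`:

* `summable_scale362`    : the series `S(Y)` converges absolutely for `Y > 0`;
* `norm_tsum_scale_le362`: `‖S(Y)‖ ≤ C₁ Y^{-(1+η)}` for `Y ≥ Y₀`;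
* `aesm_sum362`          : `S` is a.e. strongly measurable on `(0, ∞)`;
* `hasSum_mellin362`     : `∑ c i N i ^ (-s) · M(s) = ∫₀^∞ S(Y) Y^{s-1} dY` (Tonelli).
-/

set_option autoImplicit false

open MeasureTheory Filter Topology Set

noncomputable section

namespace Fermat.Agent.LT.T7.H362

variable {G : ℝ → ℝ} {C η : ℝ}

/-- `G (Y n) ≤ (C + G Y) Y^{-(1+η)} n^{-(1+η)}` for `Y > 0`, `n ≥ 1`. -/
theorem Wt362.scale_bound (h : Wt362 G C η) {Y n : ℝ} (hY : 0 < Y) (hn : 1 ≤ n) :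
    G (Y * n) ≤ (C + G Y) * Y ^ (-(1 + η)) * n ^ (-(1 + η)) := by
  have hn0 : 0 < n := lt_of_lt_of_le one_pos hn
  have hYn : 0 < Y * n := mul_pos hY hn0
  have hGY := h.nonneg Y hY
  have hC := h.C_nonneg
  have hpow : (Y * n) ^ (-(1 + η)) = Y ^ (-(1 + η)) * n ^ (-(1 + η)) :=
    Real.mul_rpow hY.le hn0.le
  have hpos : 0 ≤ (Y * n) ^ (-(1 + η)) := Real.rpow_nonneg hYn.le _
  rw [mul_assoc, ← hpow]
  rcases le_or_gt 1 (Y * n) with h1 | h1
  · calc G (Y * n) ≤ C * (Y * n) ^ (-(1 + η)) := h.decay _ h1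
      _ ≤ (C + G Y) * (Y * n) ^ (-(1 + η)) :=
          mul_le_mul_of_nonneg_right (by linarith) hpos
  · have hle : Y ≤ Y * n := by nlinarith
    have h2 : G (Y * n) ≤ G Y := h.anti hY hYn hle
    have h3 : 1 ≤ (Y * n) ^ (-(1 + η)) :=
      Real.one_le_rpow_of_pos_of_le_one_of_nonpos hYn h1.le (by linarith [h.eta_pos])
    calc G (Y * n) ≤ G Y := h2
      _ ≤ (C + G Y) * 1 := by linarith
      _ ≤ (C + G Y) * (Y * n) ^ (-(1 + η)) :=
          mul_le_mul_of_nonneg_left h3 (by linarith)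

section Series

variable {ι : Type*} {N : ι → ℝ} {c : ι → ℂ}

theorem term_nonneg362 (h : Wt362 G C η) (hcN : ∀ i, c i = 0 ∨ 1 ≤ N i) {Y : ℝ} (hY : 0 < Y)
    (i : ι) : 0 ≤ ‖c i‖ * G (Y * N i) := by
  rcases hcN i with hc | hn
  · simp [hc]
  · exact mul_nonneg (norm_nonneg _) (h.nonneg _ (mul_pos hY (lt_of_lt_of_le one_pos hn)))

theorem term_le362 (h : Wt362 G C η) (hcN : ∀ i, c i = 0 ∨ 1 ≤ N i) {Y : ℝ} (hY : 0 < Y)
    (i : ι) : ‖c i‖ * G (Y * N i)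
      ≤ (C + G Y) * Y ^ (-(1 + η)) * (‖c i‖ * N i ^ (-(1 + η))) := by
  rcases hcN i with hc | hn
  · simp [hc]
  · calc ‖c i‖ * G (Y * N i)
        ≤ ‖c i‖ * ((C + G Y) * Y ^ (-(1 + η)) * N i ^ (-(1 + η))) :=
          mul_le_mul_of_nonneg_left (h.scale_bound hY hn) (norm_nonneg _)
      _ = (C + G Y) * Y ^ (-(1 + η)) * (‖c i‖ * N i ^ (-(1 + η))) := by ring

/-- The smoothed sum converges absolutely. -/
theorem summable_scale362 (h : Wt362 G C η) (hcN : ∀ i, c i = 0 ∨ 1 ≤ N i)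
    (hsum : ∀ s : ℝ, 1 < s → Summable fun i => ‖c i‖ * N i ^ (-s)) {Y : ℝ} (hY : 0 < Y) :
    Summable fun i => ‖c i‖ * G (Y * N i) :=
  Summable.of_nonneg_of_le (term_nonneg362 h hcN hY) (term_le362 h hcN hY)
    ((hsum (1 + η) (by linarith [h.eta_pos])).mul_left _)

theorem norm_term362 (h : Wt362 G C η) (hcN : ∀ i, c i = 0 ∨ 1 ≤ N i) {Y : ℝ} (hY : 0 < Y)
    (i : ι) : ‖c i * ((G (Y * N i) : ℝ) : ℂ)‖ = ‖c i‖ * G (Y * N i) := by
  rcases hcN i with hc | hn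
  · simp [hc]
  · rw [norm_mul, Complex.norm_real,
      Real.norm_of_nonneg (h.nonneg _ (mul_pos hY (lt_of_lt_of_le one_pos hn)))]

theorem summable_scale_cplx362 (h : Wt362 G C η) (hcN : ∀ i, c i = 0 ∨ 1 ≤ N i)
    (hsum : ∀ s : ℝ, 1 < s → Summable fun i => ‖c i‖ * N i ^ (-s)) {Y : ℝ} (hY : 0 < Y) :
    Summable fun i => c i * ((G (Y * N i) : ℝ) : ℂ) := by
  refine Summable.of_norm ?_
  simp only [norm_term362 h hcN hY]
  exact summable_scale362 h hcN hsum hY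

/-- `‖S(Y)‖ ≤ (C + G Y₀) A Y^{-(1+η)}` for `Y ≥ Y₀ > 0`, `A = ∑ ‖c i‖ N i ^ (-(1+η))`. -/
theorem norm_tsum_scale_le362 (h : Wt362 G C η) (hcN : ∀ i, c i = 0 ∨ 1 ≤ N i)
    (hsum : ∀ s : ℝ, 1 < s → Summable fun i => ‖c i‖ * N i ^ (-s)) {Y₀ Y : ℝ} (hY₀ : 0 < Y₀)
    (hY : Y₀ ≤ Y) :
    ‖∑' i, c i * ((G (Y * N i) : ℝ) : ℂ)‖
      ≤ (C + G Y₀) * (∑' i, ‖c i‖ * N i ^ (-(1 + η))) * Y ^ (-(1 + η)) := by
  have hY0 : 0 < Y := lt_of_lt_of_le hY₀ hY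
  have hs := hsum (1 + η) (by linarith [h.eta_pos])
  have hA : 0 ≤ ∑' i, ‖c i‖ * N i ^ (-(1 + η)) := by
    refine tsum_nonneg fun i => ?_
    rcases hcN i with hc | hn
    · simp [hc]
    · exact mul_nonneg (norm_nonneg _) (Real.rpow_nonneg (by linarith) _)
  have h1 : ‖∑' i, c i * ((G (Y * N i) : ℝ) : ℂ)‖ ≤ ∑' i, ‖c i‖ * G (Y * N i) := by
    have := norm_tsum_le_tsum_norm (f := fun i => c i * ((G (Y * N i) : ℝ) : ℂ))
      (by simp only [norm_term362 h hcN hY0]; exact summable_scale362 h hcN hsum hY0)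
    simpa only [norm_term362 h hcN hY0] using this
  have h2 : ∑' i, ‖c i‖ * G (Y * N i)
      ≤ ∑' i, (C + G Y) * Y ^ (-(1 + η)) * (‖c i‖ * N i ^ (-(1 + η))) :=
    (summable_scale362 h hcN hsum hY0).tsum_le_tsum (term_le362 h hcN hY0) (hs.mul_left _)
  rw [tsum_mul_left] at h2
  have h3 : G Y ≤ G Y₀ := h.anti hY₀ hY0 hY
  have h4 : 0 ≤ Y ^ (-(1 + η)) := Real.rpow_nonneg hY0.le _
  calc ‖∑' i, c i * ((G (Y * N i) : ℝ) : ℂ)‖
      ≤ (C + G Y) * Y ^ (-(1 + η)) * ∑' i, ‖c i‖ * N i ^ (-(1 + η)) := h1.trans h2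
    _ ≤ (C + G Y₀) * Y ^ (-(1 + η)) * ∑' i, ‖c i‖ * N i ^ (-(1 + η)) := by
        refine mul_le_mul_of_nonneg_right (mul_le_mul_of_nonneg_right (by linarith) h4) hA
    _ = (C + G Y₀) * (∑' i, ‖c i‖ * N i ^ (-(1 + η))) * Y ^ (-(1 + η)) := by ring

/-- Each term `Y ↦ G (Y n)`, `n > 0`, is a.e. strongly measurable on `(0, ∞)`. -/
theorem Wt362.aesm_scale (h : Wt362 G C η) {n : ℝ} (hn : 0 < n) :
    AEStronglyMeasurable (fun Y : ℝ => G (Y * n)) (volume.restrict (Ioi 0)) := by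
  refine (aemeasurable_restrict_of_antitoneOn measurableSet_Ioi ?_).aestronglyMeasurable
  intro Y hY Y' hY' hle
  exact h.anti (mul_pos hY hn) (mul_pos hY' hn) (mul_le_mul_of_nonneg_right hle hn.le)

theorem aesm_term362 (h : Wt362 G C η) (hcN : ∀ i, c i = 0 ∨ 1 ≤ N i) (i : ι) :
    AEStronglyMeasurable (fun Y : ℝ => c i * ((G (Y * N i) : ℝ) : ℂ))
      (volume.restrict (Ioi 0)) := by
  rcases hcN i with hc | hn
  · simp only [hc, zero_mul]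
    exact aestronglyMeasurable_const
  · exact (Complex.continuous_ofReal.comp_aestronglyMeasurable
      (h.aesm_scale (lt_of_lt_of_le one_pos hn))).const_mul (c i)

/-- The smoothed sum is a.e. strongly measurable on `(0, ∞)`. -/
theorem aesm_sum362 [Countable ι] (h : Wt362 G C η) (hcN : ∀ i, c i = 0 ∨ 1 ≤ N i)
    (hsum : ∀ s : ℝ, 1 < s → Summable fun i => ‖c i‖ * N i ^ (-s)) :
    AEStronglyMeasurable (fun Y : ℝ => ∑' i, c i * ((G (Y * N i) : ℝ) : ℂ))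
      (volume.restrict (Ioi 0)) := by
  refine aestronglyMeasurable_of_tendsto_ae (atTop : Filter (Finset ι))
    (f := fun (t : Finset ι) (Y : ℝ) => ∑ i ∈ t, c i * ((G (Y * N i) : ℝ) : ℂ)) ?_ ?_
  · intro t
    exact Finset.aestronglyMeasurable_fun_sum t fun i _ => aesm_term362 h hcN i
  · refine (ae_restrict_iff' measurableSet_Ioi).mpr (Eventually.of_forall fun Y hY => ?_)
    exact (summable_scale_cplx362 h hcN hsum hY).hasSum

/-- The scaled Mellin integrals: for `n > 0`, `∫₀^∞ G (Y n) Y^{s-1} dY = n^{-s} M(s)`. -/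
theorem Wt362.mellin_scale (h : Wt362 G C η) {s : ℝ} (hs1 : 1 ≤ s) (hs2 : s < 1 + η) {n : ℝ}
    (hn : 0 < n) :
    IntegrableOn (fun Y : ℝ => G (Y * n) * Y ^ (s - 1)) (Ioi 0) ∧
      ∫ Y in Ioi 0, G (Y * n) * Y ^ (s - 1) = n ^ (-s) * ∫ T in Ioi 0, G T * T ^ (s - 1) := by
  have hM := h.mellin_int hs1 hs2
  have hint : IntegrableOn (fun Y : ℝ => (fun T : ℝ => G T * T ^ (s - 1)) (Y * n)) (Ioi 0) :=
    (integrableOn_Ioi_comp_mul_right_iff (fun T : ℝ => G T * T ^ (s - 1)) 0 hn).mpr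
      (by simpa using hM)
  have hcv : ∫ Y in Ioi 0, (fun T : ℝ => G T * T ^ (s - 1)) (Y * n)
      = n⁻¹ • ∫ T in Ioi (0 * n), G T * T ^ (s - 1) :=
    integral_comp_mul_right_Ioi (fun T : ℝ => G T * T ^ (s - 1)) 0 hn
  have heq : ∀ Y ∈ Ioi (0 : ℝ), n ^ (1 - s) * (fun T : ℝ => G T * T ^ (s - 1)) (Y * n)
      = G (Y * n) * Y ^ (s - 1) := by
    intro Y hY
    have hY0 : (0 : ℝ) < Y := hY
    have h1 : (Y * n) ^ (s - 1) = Y ^ (s - 1) * n ^ (s - 1) := Real.mul_rpow hY0.le hn.le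
    have h2 : n ^ (1 - s) * n ^ (s - 1) = 1 := by
      rw [← Real.rpow_add hn]
      simp
    simp only [h1]
    calc n ^ (1 - s) * (G (Y * n) * (Y ^ (s - 1) * n ^ (s - 1)))
        = G (Y * n) * Y ^ (s - 1) * (n ^ (1 - s) * n ^ (s - 1)) := by ring
      _ = G (Y * n) * Y ^ (s - 1) := by rw [h2, mul_one]
  refine ⟨IntegrableOn.congr_fun (Integrable.const_mul hint (n ^ (1 - s))) heq
    measurableSet_Ioi, ?_⟩
  rw [← setIntegral_congr_fun measurableSet_Ioi heq, integral_const_mul, hcv, zero_mul,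
    smul_eq_mul, ← mul_assoc]
  congr 1
  rw [show -s = (1 - s) - 1 by ring, Real.rpow_sub_one hn.ne', div_eq_mul_inv]

/-- **Tonelli.**  `∑ c i N i ^ (-s) · M(s) = ∫₀^∞ S(Y) Y^{s-1} dY` for `1 < s < 1 + η`. -/
theorem hasSum_mellin362 [Countable ι] (h : Wt362 G C η) (hcN : ∀ i, c i = 0 ∨ 1 ≤ N i)
    (hsum : ∀ s : ℝ, 1 < s → Summable fun i => ‖c i‖ * N i ^ (-s)) {s : ℝ} (hs1 : 1 < s)
    (hs2 : s < 1 + η) :
    HasSum (fun i => c i * ((N i ^ (-s) : ℝ) : ℂ)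
        * ((∫ T in Ioi 0, G T * T ^ (s - 1) : ℝ) : ℂ))
      (∫ Y in Ioi 0, (∑' i, c i * ((G (Y * N i) : ℝ) : ℂ)) * ((Y ^ (s - 1) : ℝ) : ℂ)) := by
  have hterm : ∀ i, (fun Y : ℝ => c i * ((G (Y * N i) : ℝ) : ℂ) * ((Y ^ (s - 1) : ℝ) : ℂ))
      = fun Y : ℝ => c i * ((G (Y * N i) * Y ^ (s - 1) : ℝ) : ℂ) := by
    intro i
    funext Y
    rw [Complex.ofReal_mul, mul_assoc]
  have hF_int : ∀ i, Integrable
      (fun Y : ℝ => c i * ((G (Y * N i) : ℝ) : ℂ) * ((Y ^ (s - 1) : ℝ) : ℂ))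
      (volume.restrict (Ioi 0)) := by
    intro i
    rw [hterm i]
    rcases hcN i with hc | hn
    · simp only [hc, zero_mul]
      exact integrable_zero _ _ _
    · exact ((h.mellin_scale hs1.le hs2 (lt_of_lt_of_le one_pos hn)).1.ofReal).const_mul (c i)
  have hnorm : ∀ i, ∫ Y in Ioi 0,
      ‖c i * ((G (Y * N i) : ℝ) : ℂ) * ((Y ^ (s - 1) : ℝ) : ℂ)‖
      = ‖c i‖ * N i ^ (-s) * ∫ T in Ioi 0, G T * T ^ (s - 1) := by
    intro i
    rcases hcN i with hc | hn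
    · simp [hc]
    · have hn0 : 0 < N i := lt_of_lt_of_le one_pos hn
      have h1 : ∀ Y ∈ Ioi (0 : ℝ),
          ‖c i * ((G (Y * N i) : ℝ) : ℂ) * ((Y ^ (s - 1) : ℝ) : ℂ)‖
            = ‖c i‖ * (G (Y * N i) * Y ^ (s - 1)) := by
        intro Y hY
        have hY0 : (0 : ℝ) < Y := hY
        rw [norm_mul, norm_mul, Complex.norm_real, Complex.norm_real,
          Real.norm_of_nonneg (h.nonneg _ (mul_pos hY0 hn0)),
          Real.norm_of_nonneg (Real.rpow_nonneg hY0.le _), mul_assoc]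
      rw [setIntegral_congr_fun measurableSet_Ioi h1, integral_const_mul,
        (h.mellin_scale hs1.le hs2 hn0).2, mul_assoc]
  have hF_sum : Summable fun i => ∫ Y in Ioi 0,
      ‖c i * ((G (Y * N i) : ℝ) : ℂ) * ((Y ^ (s - 1) : ℝ) : ℂ)‖ := by
    simp only [hnorm]
    exact (hsum s hs1).mul_right _
  have key := hasSum_integral_of_summable_integral_norm hF_int hF_sum
  have hval : ∀ i, ∫ Y in Ioi 0, c i * ((G (Y * N i) : ℝ) : ℂ) * ((Y ^ (s - 1) : ℝ) : ℂ)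
      = c i * ((N i ^ (-s) : ℝ) : ℂ) * ((∫ T in Ioi 0, G T * T ^ (s - 1) : ℝ) : ℂ) := by
    intro i
    rw [hterm i]
    rcases hcN i with hc | hn
    · simp [hc]
    · have hn0 : 0 < N i := lt_of_lt_of_le one_pos hn
      rw [integral_const_mul, integral_complex_ofReal, (h.mellin_scale hs1.le hs2 hn0).2,
        Complex.ofReal_mul, mul_assoc]
  simp only [hval] at key
  simpa only [tsum_mul_right] using key

end Series

end Fermat.Agent.LT.T7.H362
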