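import Mathlib
import Fermat.Agent.LT.T7.H362.AbelSeries

/-!
# Row LT, tower T7, leaf T7.14.2 (`AbelC`), part 3: the Abelian step -- helper362

OFF-MAIN.  Mathlib only.  `abel_core362`: for a countable index set `ι`, `N : ι → ℝ`,
`c : ι → ℂ` with `c i = 0 ∨ 1 ≤ N i`, `∑ ‖c i‖ N i ^ (-s) < ∞` (`s > 1`), `G` a weight:
if `Y · ∑ c i G(Y N i) → L` as `Y → 0⁺` then `(s - 1) ∑ c i N i ^ (-s) → L / m` as `s → 1⁺`,
`m = ∫₀^∞ G > 0`.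

`D(s) M(s) = ∫₀^∞ S(Y) Y^{s-1} dY` (`hasSum_mellin362`); the integral over `(0, Y₀]` is
`L Y₀^{s-1} / (s-1)` up to `ε Y₀^{s-1} / (s-1)`; the integral over `(Y₀, ∞)` is bounded
uniformly in `s ∈ (1, 1 + η/2]`; `M(s) → m` (`Wt362.mellin_tendsto`).
-/

set_option autoImplicit false

open MeasureTheory Filter Topology Set

noncomputable section

namespace Fermat.Agent.LT.T7.H362

variable {G : ℝ → ℝ} {C η : ℝ} {ι : Type*} {N : ι → ℝ} {c : ι → ℂ}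

/-- The local estimate. -/
theorem abel_local362 [Countable ι] (h : Wt362 G C η) (hcN : ∀ i, c i = 0 ∨ 1 ≤ N i)
    (hsum : ∀ s : ℝ, 1 < s → Summable fun i => ‖c i‖ * N i ^ (-s)) {L : ℂ} {ε Y₀ : ℝ}
    (hY₀ : 0 < Y₀)
    (hnear : ∀ Y ∈ Ioc 0 Y₀, ‖(Y : ℂ) * (∑' i, c i * ((G (Y * N i) : ℝ) : ℂ)) - L‖ ≤ ε)
    {s : ℝ} (hs1 : 1 < s) (hs2 : s ≤ 1 + η / 2) :
    ‖((s - 1 : ℝ) : ℂ)
          * (∫ Y in Ioi 0, (∑' i, c i * ((G (Y * N i) : ℝ) : ℂ)) * ((Y ^ (s - 1) : ℝ) : ℂ))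
        - L‖
      ≤ ε * Y₀ ^ (s - 1) + ‖L‖ * |Y₀ ^ (s - 1) - 1|
        + (s - 1) * ((C + G Y₀) * (∑' i, ‖c i‖ * N i ^ (-(1 + η)))
            * ∫ Y in Ioi Y₀, (Y ^ (-(1 + η)) + Y ^ (-(1 + η / 2)))) := by
  set S : ℝ → ℂ := fun Y => ∑' i, c i * ((G (Y * N i) : ℝ) : ℂ) with hS
  set A : ℝ := ∑' i, ‖c i‖ * N i ^ (-(1 + η)) with hA
  have hη := h.eta_pos
  have hs0 : 0 < s - 1 := by linarith
  have hA0 : 0 ≤ A := by
    refine tsum_nonneg fun i => ?_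
    rcases hcN i with hc | hn
    · simp [hc]
    · exact mul_nonneg (norm_nonneg _) (Real.rpow_nonneg (by linarith) _)
  have hC1 : 0 ≤ (C + G Y₀) * A :=
    mul_nonneg (add_nonneg h.C_nonneg (h.nonneg Y₀ hY₀)) hA0
  -- measurability
  have hmeas : AEStronglyMeasurable (fun Y : ℝ => S Y * ((Y ^ (s - 1) : ℝ) : ℂ))
      (volume.restrict (Ioi 0)) :=
    (aesm_sum362 h hcN hsum).mul (Complex.continuous_ofReal.comp_aestronglyMeasurable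
      (measurable_id.pow_const (s - 1)).aestronglyMeasurable)
  -- the tail `(Y₀, ∞)`
  have hb_int : IntegrableOn
      (fun Y : ℝ => (C + G Y₀) * A * (Y ^ (-(1 + η)) + Y ^ (-(1 + η / 2)))) (Ioi Y₀) :=
    ((integrableOn_Ioi_rpow_of_lt (by linarith) hY₀).add
      (integrableOn_Ioi_rpow_of_lt (by linarith) hY₀)).const_mul _
  have htail_bound : ∀ Y ∈ Ioi Y₀, ‖S Y * ((Y ^ (s - 1) : ℝ) : ℂ)‖
      ≤ (C + G Y₀) * A * (Y ^ (-(1 + η)) + Y ^ (-(1 + η / 2))) := by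
    intro Y hY
    have hY0 : 0 < Y := lt_trans hY₀ hY
    have h1 := norm_tsum_scale_le362 h hcN hsum hY₀ (le_of_lt hY)
    have h2 : 0 ≤ Y ^ (s - 1) := Real.rpow_nonneg hY0.le _
    have h3 : Y ^ (-(1 + η)) * Y ^ (s - 1) ≤ Y ^ (-(1 + η)) + Y ^ (-(1 + η / 2)) := by
      have hp : 0 ≤ Y ^ (-(1 + η)) := Real.rpow_nonneg hY0.le _
      have hp' : 0 ≤ Y ^ (-(1 + η / 2)) := Real.rpow_nonneg hY0.le _
      rcases le_total Y 1 with hY1 | hY1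
      · have h4 : Y ^ (s - 1) ≤ 1 := Real.rpow_le_one hY0.le hY1 (by linarith)
        nlinarith
      · have h4 : Y ^ (-(1 + η)) * Y ^ (s - 1) = Y ^ (s - 2 - η) := by
          rw [← Real.rpow_add hY0]
          congr 1
          ring
        have h5 : Y ^ (s - 2 - η) ≤ Y ^ (-(1 + η / 2)) :=
          Real.rpow_le_rpow_of_exponent_le hY1 (by linarith)
        linarith
    rw [norm_mul, Complex.norm_real, Real.norm_of_nonneg h2]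
    calc ‖S Y‖ * Y ^ (s - 1) ≤ (C + G Y₀) * A * Y ^ (-(1 + η)) * Y ^ (s - 1) :=
          mul_le_mul_of_nonneg_right h1 h2
      _ = (C + G Y₀) * A * (Y ^ (-(1 + η)) * Y ^ (s - 1)) := by ring
      _ ≤ (C + G Y₀) * A * (Y ^ (-(1 + η)) + Y ^ (-(1 + η / 2))) :=
          mul_le_mul_of_nonneg_left h3 hC1
  have htail_ae : ∀ᵐ Y ∂(volume.restrict (Ioi Y₀)), ‖S Y * ((Y ^ (s - 1) : ℝ) : ℂ)‖
      ≤ (C + G Y₀) * A * (Y ^ (-(1 + η)) + Y ^ (-(1 + η / 2))) :=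
    (ae_restrict_iff' measurableSet_Ioi).mpr (Eventually.of_forall htail_bound)
  have htail_int : IntegrableOn (fun Y : ℝ => S Y * ((Y ^ (s - 1) : ℝ) : ℂ)) (Ioi Y₀) :=
    Integrable.mono' hb_int (hmeas.mono_set (Ioi_subset_Ioi hY₀.le)) htail_ae
  have htail : ‖∫ Y in Ioi Y₀, S Y * ((Y ^ (s - 1) : ℝ) : ℂ)‖
      ≤ (C + G Y₀) * A * ∫ Y in Ioi Y₀, (Y ^ (-(1 + η)) + Y ^ (-(1 + η / 2))) := by
    rw [← integral_const_mul]
    exact norm_integral_le_of_norm_le hb_int htail_ae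
  -- the head `(0, Y₀]`
  have hpow_int : IntegrableOn (fun Y : ℝ => Y ^ (s - 2)) (Ioc 0 Y₀) :=
    (intervalIntegrable_iff_integrableOn_Ioc_of_le hY₀.le).mp
      (intervalIntegral.intervalIntegrable_rpow' (by linarith))
  have hpow_val : ∫ Y in Ioc 0 Y₀, Y ^ (s - 2) = Y₀ ^ (s - 1) / (s - 1) := by
    rw [← intervalIntegral.integral_of_le hY₀.le, integral_rpow (Or.inl (by linarith))]
    have h1 : s - 2 + 1 = s - 1 := by ring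
    rw [h1, Real.zero_rpow hs0.ne', sub_zero]
  have hrew : ∀ Y ∈ Ioc 0 Y₀, S Y * ((Y ^ (s - 1) : ℝ) : ℂ)
      = ((Y : ℂ) * S Y) * ((Y ^ (s - 2) : ℝ) : ℂ) := by
    intro Y hY
    have hY0 : 0 < Y := hY.1
    have h1 : Y ^ (s - 1) = Y * Y ^ (s - 2) := by
      have h2 := Real.rpow_add hY0 1 (s - 2)
      rw [Real.rpow_one] at h2
      rw [← h2]
      congr 1
      ring
    rw [h1, Complex.ofReal_mul]
    ring
  have hhead_bound : ∀ Y ∈ Ioc 0 Y₀, ‖S Y * ((Y ^ (s - 1) : ℝ) : ℂ)‖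
      ≤ (‖L‖ + ε) * Y ^ (s - 2) := by
    intro Y hY
    rw [hrew Y hY, norm_mul, Complex.norm_real,
      Real.norm_of_nonneg (Real.rpow_nonneg hY.1.le _)]
    refine mul_le_mul_of_nonneg_right ?_ (Real.rpow_nonneg hY.1.le _)
    have h1 := hnear Y hY
    calc ‖(Y : ℂ) * S Y‖ = ‖L + ((Y : ℂ) * S Y - L)‖ := by rw [add_sub_cancel]
      _ ≤ ‖L‖ + ‖(Y : ℂ) * S Y - L‖ := norm_add_le _ _
      _ ≤ ‖L‖ + ε := by linarith
  have hhead_int : IntegrableOn (fun Y : ℝ => S Y * ((Y ^ (s - 1) : ℝ) : ℂ)) (Ioc 0 Y₀) :=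
    Integrable.mono' (Integrable.const_mul hpow_int _) (hmeas.mono_set Ioc_subset_Ioi_self)
      ((ae_restrict_iff' measurableSet_Ioc).mpr (Eventually.of_forall hhead_bound))
  have hLint : IntegrableOn (fun Y : ℝ => L * ((Y ^ (s - 2) : ℝ) : ℂ)) (Ioc 0 Y₀) :=
    Integrable.const_mul (Integrable.ofReal hpow_int) L
  have hhead : ‖(∫ Y in Ioc 0 Y₀, S Y * ((Y ^ (s - 1) : ℝ) : ℂ))
      - L * ((Y₀ ^ (s - 1) / (s - 1) : ℝ) : ℂ)‖ ≤ ε * (Y₀ ^ (s - 1) / (s - 1)) := by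
    have e1 : L * ((Y₀ ^ (s - 1) / (s - 1) : ℝ) : ℂ)
        = ∫ Y in Ioc 0 Y₀, L * ((Y ^ (s - 2) : ℝ) : ℂ) := by
      rw [integral_const_mul, integral_complex_ofReal, hpow_val]
    rw [e1, ← integral_sub hhead_int hLint, ← hpow_val, ← integral_const_mul]
    refine norm_integral_le_of_norm_le (Integrable.const_mul hpow_int ε)
      ((ae_restrict_iff' measurableSet_Ioc).mpr (Eventually.of_forall fun Y hY => ?_))
    rw [hrew Y hY, ← sub_mul, norm_mul, Complex.norm_real,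
      Real.norm_of_nonneg (Real.rpow_nonneg hY.1.le _)]
    exact mul_le_mul_of_nonneg_right (hnear Y hY) (Real.rpow_nonneg hY.1.le _)
  -- the splitting
  have hsplit : ∫ Y in Ioi 0, S Y * ((Y ^ (s - 1) : ℝ) : ℂ)
      = (∫ Y in Ioc 0 Y₀, S Y * ((Y ^ (s - 1) : ℝ) : ℂ))
        + ∫ Y in Ioi Y₀, S Y * ((Y ^ (s - 1) : ℝ) : ℂ) := by
    rw [← Ioc_union_Ioi_eq_Ioi hY₀.le]
    exact setIntegral_union (Set.disjoint_left.mpr fun x hx hx' => not_lt.mpr hx.2 hx')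
      measurableSet_Ioi hhead_int htail_int
  rw [hsplit]
  set I₁ : ℂ := ∫ Y in Ioc 0 Y₀, S Y * ((Y ^ (s - 1) : ℝ) : ℂ) with hI₁
  set I₂ : ℂ := ∫ Y in Ioi Y₀, S Y * ((Y ^ (s - 1) : ℝ) : ℂ) with hI₂
  set B : ℝ := (C + G Y₀) * A * ∫ Y in Ioi Y₀, (Y ^ (-(1 + η)) + Y ^ (-(1 + η / 2))) with hB
  have hsne : ((s - 1 : ℝ) : ℂ) ≠ 0 := by
    exact_mod_cast hs0.ne'
  have e2 : ((s - 1 : ℝ) : ℂ) * (I₁ + I₂) - L
      = ((s - 1 : ℝ) : ℂ) * (I₁ - L * ((Y₀ ^ (s - 1) / (s - 1) : ℝ) : ℂ))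
        + L * ((Y₀ ^ (s - 1) - 1 : ℝ) : ℂ) + ((s - 1 : ℝ) : ℂ) * I₂ := by
    have e3 : ((Y₀ ^ (s - 1) / (s - 1) : ℝ) : ℂ)
        = ((Y₀ ^ (s - 1) : ℝ) : ℂ) / ((s - 1 : ℝ) : ℂ) := by
      rw [Complex.ofReal_div]
    have e4 : ((Y₀ ^ (s - 1) - 1 : ℝ) : ℂ) = ((Y₀ ^ (s - 1) : ℝ) : ℂ) - 1 := by
      rw [Complex.ofReal_sub, Complex.ofReal_one]
    rw [e3, e4]
    field_simp
    ring
  rw [e2]
  have n1 : ‖((s - 1 : ℝ) : ℂ) * (I₁ - L * ((Y₀ ^ (s - 1) / (s - 1) : ℝ) : ℂ))‖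
      ≤ ε * Y₀ ^ (s - 1) := by
    rw [norm_mul, Complex.norm_real, Real.norm_of_nonneg hs0.le]
    calc (s - 1) * ‖I₁ - L * ((Y₀ ^ (s - 1) / (s - 1) : ℝ) : ℂ)‖
        ≤ (s - 1) * (ε * (Y₀ ^ (s - 1) / (s - 1))) := mul_le_mul_of_nonneg_left hhead hs0.le
      _ = ε * Y₀ ^ (s - 1) := by field_simp
  have n2 : ‖L * ((Y₀ ^ (s - 1) - 1 : ℝ) : ℂ)‖ = ‖L‖ * |Y₀ ^ (s - 1) - 1| := by
    rw [norm_mul, Complex.norm_real, Real.norm_eq_abs]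
  have n3 : ‖((s - 1 : ℝ) : ℂ) * I₂‖ ≤ (s - 1) * B := by
    rw [norm_mul, Complex.norm_real, Real.norm_of_nonneg hs0.le]
    exact mul_le_mul_of_nonneg_left htail hs0.le
  calc ‖((s - 1 : ℝ) : ℂ) * (I₁ - L * ((Y₀ ^ (s - 1) / (s - 1) : ℝ) : ℂ))
          + L * ((Y₀ ^ (s - 1) - 1 : ℝ) : ℂ) + ((s - 1 : ℝ) : ℂ) * I₂‖
      ≤ ‖((s - 1 : ℝ) : ℂ) * (I₁ - L * ((Y₀ ^ (s - 1) / (s - 1) : ℝ) : ℂ))‖
          + ‖L * ((Y₀ ^ (s - 1) - 1 : ℝ) : ℂ)‖ + ‖((s - 1 : ℝ) : ℂ) * I₂‖ := norm_add₃_le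
    _ ≤ ε * Y₀ ^ (s - 1) + ‖L‖ * |Y₀ ^ (s - 1) - 1| + (s - 1) * B := by
        rw [n2]
        linarith

/-- **The Abelian step, abstract form.** -/
theorem abel_core362 [Countable ι] (h : Wt362 G C η) (hcN : ∀ i, c i = 0 ∨ 1 ≤ N i)
    (hsum : ∀ s : ℝ, 1 < s → Summable fun i => ‖c i‖ * N i ^ (-s)) {L : ℂ}
    (hlim : Tendsto (fun Y : ℝ => (Y : ℂ) * ∑' i, c i * ((G (Y * N i) : ℝ) : ℂ))
      (𝓝[>] (0 : ℝ)) (𝓝 L)) :
    Tendsto (fun s : ℝ => ((s - 1 : ℝ) : ℂ) * ∑' i, c i * ((N i ^ (-s) : ℝ) : ℂ))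
      (𝓝[>] (1 : ℝ)) (𝓝 (L / ((∫ T in Ioi 0, G T : ℝ) : ℂ))) := by
  have hη := h.eta_pos
  have hm : 0 < ∫ T in Ioi 0, G T := h.mass_pos
  -- Step 1: `(s - 1) I(s) → L`
  have hI : Tendsto (fun s : ℝ => ((s - 1 : ℝ) : ℂ)
      * ∫ Y in Ioi 0, (∑' i, c i * ((G (Y * N i) : ℝ) : ℂ)) * ((Y ^ (s - 1) : ℝ) : ℂ))
      (𝓝[>] (1 : ℝ)) (𝓝 L) := by
    rw [Metric.tendsto_nhds]
    intro ε hε
    have hev : ∀ᶠ Y : ℝ in 𝓝[>] (0 : ℝ),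
        ‖(Y : ℂ) * (∑' i, c i * ((G (Y * N i) : ℝ) : ℂ)) - L‖ ≤ ε / 2 := by
      have h1 := (Metric.tendsto_nhds.mp hlim) (ε / 2) (by linarith)
      filter_upwards [h1] with Y hY
      rw [dist_eq_norm] at hY
      exact hY.le
    obtain ⟨u, hu, hsub⟩ := mem_nhdsGT_iff_exists_Ioo_subset.mp hev
    have hu0 : (0 : ℝ) < u := hu
    have hY₀ : 0 < u / 2 := by positivity
    have hnear : ∀ Y ∈ Ioc (0 : ℝ) (u / 2),
        ‖(Y : ℂ) * (∑' i, c i * ((G (Y * N i) : ℝ) : ℂ)) - L‖ ≤ ε / 2 :=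
      fun Y hY => hsub ⟨hY.1, by linarith [hY.2]⟩
    have hb : Tendsto (fun s : ℝ => ε / 2 * (u / 2) ^ (s - 1) + ‖L‖ * |(u / 2) ^ (s - 1) - 1|
        + (s - 1) * ((C + G (u / 2)) * (∑' i, ‖c i‖ * N i ^ (-(1 + η)))
            * ∫ Y in Ioi (u / 2), (Y ^ (-(1 + η)) + Y ^ (-(1 + η / 2))))) (𝓝 1) (𝓝 (ε / 2)) := by
      have hp : ContinuousAt (fun s : ℝ => (u / 2) ^ (s - 1)) 1 :=
        (Real.continuousAt_const_rpow hY₀.ne').comp (continuousAt_id.sub continuousAt_const)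
      have hc : ContinuousAt (fun s : ℝ => ε / 2 * (u / 2) ^ (s - 1)
          + ‖L‖ * |(u / 2) ^ (s - 1) - 1|
          + (s - 1) * ((C + G (u / 2)) * (∑' i, ‖c i‖ * N i ^ (-(1 + η)))
            * ∫ Y in Ioi (u / 2), (Y ^ (-(1 + η)) + Y ^ (-(1 + η / 2))))) 1 :=
        ((continuousAt_const.mul hp).add
          (continuousAt_const.mul (hp.sub continuousAt_const).abs)).add
          ((continuousAt_id.sub continuousAt_const).mul continuousAt_const)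
      have h1 := hc.tendsto
      simpa using h1
    have hev2 : ∀ᶠ s in 𝓝[>] (1 : ℝ), ε / 2 * (u / 2) ^ (s - 1)
        + ‖L‖ * |(u / 2) ^ (s - 1) - 1|
        + (s - 1) * ((C + G (u / 2)) * (∑' i, ‖c i‖ * N i ^ (-(1 + η)))
            * ∫ Y in Ioi (u / 2), (Y ^ (-(1 + η)) + Y ^ (-(1 + η / 2)))) < ε :=
      (tendsto_nhdsWithin_of_tendsto_nhds hb).eventually_lt_const (by linarith)
    have hev3 : ∀ᶠ s in 𝓝[>] (1 : ℝ), 1 < s ∧ s ≤ 1 + η / 2 := by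
      refine eventually_mem_nhdsWithin.and ?_
      exact eventually_nhdsWithin_of_eventually_nhds (eventually_le_nhds (by linarith))
    filter_upwards [hev2, hev3] with s hs2 hs3
    rw [dist_eq_norm]
    exact lt_of_le_of_lt (abel_local362 h hcN hsum hY₀ hnear hs3.1 hs3.2) hs2
  -- Step 2: `M(s) → m`
  have hM : Tendsto (fun s : ℝ => ((∫ T in Ioi 0, G T * T ^ (s - 1) : ℝ) : ℂ)) (𝓝[>] (1 : ℝ))
      (𝓝 ((∫ T in Ioi 0, G T : ℝ) : ℂ)) :=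
    (Complex.continuous_ofReal.tendsto _).comp h.mellin_tendsto
  have hmne : ((∫ T in Ioi 0, G T : ℝ) : ℂ) ≠ 0 := by
    exact_mod_cast hm.ne'
  refine (hI.div hM hmne).congr' ?_
  have hev4 : ∀ᶠ s in 𝓝[>] (1 : ℝ), 1 < s ∧ s < 1 + η := by
    refine eventually_mem_nhdsWithin.and ?_
    exact eventually_nhdsWithin_of_eventually_nhds (eventually_lt_nhds (by linarith))
  have hev5 : ∀ᶠ s in 𝓝[>] (1 : ℝ), ((∫ T in Ioi 0, G T * T ^ (s - 1) : ℝ) : ℂ) ≠ 0 :=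
    hM.eventually_ne hmne
  filter_upwards [hev4, hev5] with s hs hne
  have hT := (hasSum_mellin362 h hcN hsum hs.1 hs.2).tsum_eq
  rw [tsum_mul_right] at hT
  simp only [Pi.div_apply]
  rw [← hT]
  field_simp

end Fermat.Agent.LT.T7.H362
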