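import Mathlib
import Fermat.Agent.LT.T7.H62.RigidPkg
import Fermat.Agent.LT.T7.H362.AbelLimit

/-!
# Row LT, tower T7, leaf T7.14.2 (`AbelC`) -- helper362, OFF-MAIN

`abelC362 K : Rigid.AbelC K` (statement of helper62 `T7/H62/RigidPkg.lean`, verbatim), from the
abstract Abelian step `abel_core362` (`AbelWeight.lean`, `AbelSeries.lean`, `AbelLimit.lean`,
Mathlib only) with `ι = Ideal (𝓞 K)`, `N = absNorm`, `m = ∫₀^∞ G`.
-/

set_option autoImplicit false

open IsDedekindDomain NumberField Filter Topology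

noncomputable section

namespace Fermat.Agent.LT.T7.H362

open Fermat.Agent.LT.T7.Rigid

/-- The ideals of the ring of integers of a number field form a countable set. -/
theorem countable_ideal362 (K : Type) [Field K] [NumberField K] : Countable (Ideal (𝓞 K)) := by
  have h : (Set.univ : Set (Ideal (𝓞 K))) = ⋃ n : ℕ, {I | Ideal.absNorm I ≤ n} := by
    ext I
    simp only [Set.mem_univ, Set.mem_iUnion, true_iff]
    exact ⟨Ideal.absNorm I, le_refl (Ideal.absNorm I)⟩
  rw [← Set.countable_univ_iff, h]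
  exact Set.countable_iUnion fun n => (Ideal.finite_setOfPred_absNorm_le n).countable

/-- **T7.14.2 (Abel).** -/
theorem abelC362 (K : Type) [Field K] [NumberField K] : AbelC K := by
  intro c G L hG hc0 hsum hlim
  obtain ⟨C, η, hη, hdecay⟩ := hG.decay
  have hW : Wt362 G C η := ⟨hG.nonneg, hG.anti, hG.pos, hG.int0, hη, hdecay⟩
  have hcount := countable_ideal362 K
  have hcN : ∀ I : Ideal (𝓞 K), c I = 0 ∨ 1 ≤ (Ideal.absNorm I : ℝ) := by
    intro I
    by_cases hI : I = ⊥
    · left
      rw [hI]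
      exact hc0
    · right
      have h1 : Ideal.absNorm I ≠ 0 := fun h => hI (Ideal.absNorm_eq_zero_iff.mp h)
      exact_mod_cast Nat.one_le_iff_ne_zero.mpr h1
  exact ⟨∫ T in Set.Ioi 0, G T, hW.mass_pos, abel_core362 hW hcN hsum hlim⟩

end Fermat.Agent.LT.T7.H362
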