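import Mathlib
import Fermat.Agent.LT.T7.H621.ConjSpec

/-!
# Row LT, tower T7, sub-leaf T7.02.2 `ConjLevelC621` (helper362), OFF-MAIN

`u ∈ U(s(𝔫)) → s⁻¹(u) ∈ U(𝔫)`: the principal congruence subgroup of level `s(𝔫)` goes to the one
of level `𝔫` under the adelic automorphism `conjG621 s.symm` induced by `s⁻¹`.

Proof: transport of structure along `adeleEquiv930 s.symm`.
* infinite places: the component at `w` of `s⁻¹ u` is the image of the component of `u` at
  `infPull930 s.symm w` under the ring homomorphism `infMapHom930 s.symm w`, and the entries of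
  the identity matrix are `0` or `1`;
* finite places: the component at `v` of `s⁻¹ u` is the image of the component of `u` at
  `v' = finPull930 s.symm v` under `finMapEquiv930 s.symm v`, which is continuous and maps the
  image of `s(𝔫)` in `K_{v'}` into the image of `𝔫` in `K_v`; hence it maps the closure into the
  closure.

No hole; Mathlib + the Spec closure of helper621 (`ConjSpec.lean`, byte-identical copy).
-/

set_option autoImplicit false

open IsDedekindDomain NumberField AutomorphicForm
open scoped MatrixGroups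

noncomputable section

namespace Fermat.Agent.LT.T7.H362

open Fermat.Agent.LT.H556 Fermat.Agent.LT.H556.A0 Fermat.Agent.LT.T1.H930
open Fermat.Agent.LT.T7.H621

variable {K : Type} [Field K] [NumberField K]

/-- The entries of the identity matrix are preserved by a ring homomorphism. -/
theorem map_one_entry362 {A B : Type*} [Semiring A] [Semiring B] (f : A →+* B) (i j : Fin 2) :
    f ((1 : Matrix (Fin 2) (Fin 2) A) i j) = (1 : Matrix (Fin 2) (Fin 2) B) i j := by
  by_cases h : i = j
  · subst h
    rw [Matrix.one_apply_eq, Matrix.one_apply_eq, map_one]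
  · rw [Matrix.one_apply_ne h, Matrix.one_apply_ne h, map_zero]

/-- The finite component of `s⁻¹ g` at `v` is the image of the component of `g` at
`finPull930 s.symm v`. -/
theorem finComp_conjG362 (s : K ≃+* K) (v : HeightOneSpectrum (𝓞 K)) (g : G K) (i j : Fin 2) :
    finComp v (conjG621 s.symm g) i j
      = finMapEquiv930 s.symm v (finComp (finPull930 s.symm v) g i j) :=
  rfl

/-- The infinite component of `s⁻¹ g` at `w` is the image of the component of `g` at
`infPull930 s.symm w`. -/
theorem infEntry_conjG362 (s : K ≃+* K) (w : InfinitePlace K) (g : G K) (i j : Fin 2) :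
    ((conjG621 s.symm g : Matrix (Fin 2) (Fin 2) (Adl K)) i j).1 w
      = infMapHom930 s.symm w
          (((g : Matrix (Fin 2) (Fin 2) (Adl K)) i j).1 (infPull930 s.symm w)) :=
  rfl

/-- The local isomorphism `K_{s v} → K_v` maps the closure of `s(𝔫)` into the closure of `𝔫`. -/
theorem finMapEquiv_mem_idealClosure362 (s : K ≃+* K) (𝔫 : Ideal (𝓞 K))
    (v : HeightOneSpectrum (𝓞 K)) (x : (finPull930 s.symm v).adicCompletion K)
    (hx : x ∈ idealClosure (conjLevel621 s 𝔫) (finPull930 s.symm v)) :
    finMapEquiv930 s.symm v x ∈ idealClosure 𝔫 v := by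
  have hcont : Continuous (finMapEquiv930 s.symm v) := continuous_finMapEquiv930 s.symm v
  have h1 : finMapEquiv930 s.symm v x ∈ (finMapEquiv930 s.symm v) ''
      (idealClosure (conjLevel621 s 𝔫) (finPull930 s.symm v)) := ⟨x, hx, rfl⟩
  have h2 := image_closure_subset_closure_image hcont h1
  refine closure_mono ?_ h2
  rintro _ ⟨_, ⟨y, hy, rfl⟩, rfl⟩
  refine ⟨RingOfIntegers.mapRingEquiv s.symm y, (mem_conjLevel621 s 𝔫 y).1 hy, ?_⟩
  exact (finMapEquiv930_coe s.symm v ((algebraMap (𝓞 K) K) y)).symm

/-- **T7.02.2 LEVEL**: `u ∈ U(s(𝔫)) → s⁻¹(u) ∈ U(𝔫)`. -/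
theorem conjLevelC362 (K : Type) [Field K] [NumberField K] : ConjLevelC621 K := by
  intro s 𝔫 u hu
  obtain ⟨hinf, hfin⟩ := hu
  refine ⟨fun w i j => ?_, fun v i j => ⟨?_, ?_⟩⟩
  · rw [infEntry_conjG362, hinf (infPull930 s.symm w) i j]
    exact map_one_entry362 (infMapHom930 s.symm w) i j
  · have h := (hfin (finPull930 s.symm v) i j).1
    have key : (finComp v (conjG621 s.symm u) - 1) i j
        = finMapEquiv930 s.symm v ((finComp (finPull930 s.symm v) u - 1) i j) := by
      rw [Matrix.sub_apply, Matrix.sub_apply, map_sub, finComp_conjG362]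
      congr 1
      exact (map_one_entry362 (finMapEquiv930 s.symm v).toRingHom i j).symm
    rw [key]
    exact finMapEquiv_mem_idealClosure362 s 𝔫 v _ h
  · have h := (hfin (finPull930 s.symm v) i j).2
    have hinv : (conjG621 s.symm u)⁻¹ = conjG621 s.symm u⁻¹ := (map_inv _ _).symm
    have key : (finComp v (conjG621 s.symm u)⁻¹ - 1) i j
        = finMapEquiv930 s.symm v ((finComp (finPull930 s.symm v) u⁻¹ - 1) i j) := by
      rw [hinv, Matrix.sub_apply, Matrix.sub_apply, map_sub, finComp_conjG362]
      congr 1
      exact (map_one_entry362 (finMapEquiv930 s.symm v).toRingHom i j).symm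
    rw [key]
    exact finMapEquiv_mem_idealClosure362 s 𝔫 v _ h

end Fermat.Agent.LT.T7.H362

end
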