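import Mathlib
import Fermat.Agent.LT.H556.A0
import Fermat.Agent.LT.T1.Spec
import Fermat.Agent.LT.T5.Spec

/-!
# Row LT, tower T7, leaf T7.L2.2.C `ChangeC561` (registry row 2189, helper362): the analytic inputs

OFF-MAIN.  Imports Mathlib, A0, `T1/Spec.lean`, `T5/Spec.lean` (byte-identical copies).
Complete proofs.

* `isCuspFn_sum362`: the cusp functions of T5 are stable under finite linear combinations
  (hypothesis `T1.AddFundDomC K`: a fundamental domain of `K` in `𝔸_K` has finite measure, so
  the terms of the constant term are integrable);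
* `continuous_onGinv362`: `σ⁻¹` is continuous on `GL₂(𝔸_K)`;
* `integrable_rconv362`, `continuous_rconv362`, `bdd_rconv362`: for `φ` continuous with compact
  support and `ψ` continuous (bounded) the integrand of `R(φ) ψ` is integrable and `R(φ) ψ` is
  continuous (bounded).
-/

set_option autoImplicit false
set_option linter.style.haveILetI false

open IsDedekindDomain NumberField MeasureTheory
open scoped ComplexConjugate

noncomputable section

namespace Fermat.Agent.LT.T7.H362

open Fermat.Agent.LT.H556.A0 Fermat.Agent.LT.T5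

attribute [local instance] Fermat.Agent.LT.T5.instMeasurableSpaceG

variable {K : Type} [Field K] [NumberField K]

/-! ## 1. Fundamental domains of `K` in `𝔸_K` have finite measure -/

theorem countable_numberField362 (K : Type) [Field K] [NumberField K] : Countable K := by
  have e := (Module.finBasis ℚ K).equivFun.toEquiv
  exact Countable.of_equiv _ e.symm

theorem fundDom_finite362 (hT : Fermat.Agent.LT.T1.AddFundDomC K) :
    letI : MeasurableSpace (Adl K) := borel (Adl K)
    ∀ μ : Measure (Adl K), μ.IsAddHaarMeasure → ∀ D : Set (Adl K),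
      IsAddFundamentalDomain ((algebraMap K (Adl K)).toAddMonoidHom.range) D μ → μ D < ⊤ := by
  letI : MeasurableSpace (Adl K) := borel (Adl K)
  intro μ hμ D hD
  have : BorelSpace (Adl K) := ⟨rfl⟩
  obtain ⟨D₀, -, hD₀, -, -, hfin⟩ := hT μ hμ
  have hc : Countable K := countable_numberField362 K
  have : Countable ((algebraMap K (Adl K)).toAddMonoidHom.range) := by
    have h1 : (Set.range (algebraMap K (Adl K))).Countable := Set.countable_range _
    exact h1.to_subtype
  have hinv : VAddInvariantMeasure ((algebraMap K (Adl K)).toAddMonoidHom.range) (Adl K) μ :=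
    ⟨fun ⟨x, _⟩ _ h => VAddInvariantMeasure.measure_preimage_vadd (M := Adl K) x h⟩
  have := hD.measure_eq hD₀
  rw [this]
  exact hfin

/-- The unipotent map is continuous. -/
theorem continuous_unip362 (n : Adl K → G K)
    (hn : ∀ x : Adl K, (n x : Matrix (Fin 2) (Fin 2) (Adl K)) = !![1, x; 0, 1]) :
    Continuous n := by
  have hinv : ∀ x : Adl K, (n x)⁻¹ = n (-x) := by
    intro x
    refine inv_eq_of_mul_eq_one_right ?_
    apply Units.ext
    rw [Units.val_mul, hn, hn, Units.val_one]
    ext i j
    fin_cases i <;> fin_cases j <;> simp [Matrix.mul_apply, Fin.sum_univ_two]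
  rw [Units.continuous_iff]
  constructor
  · have h : (Units.val ∘ n)
        = fun u : Adl K => (!![1, u; 0, 1] : Matrix (Fin 2) (Fin 2) (Adl K)) := by
      funext x
      exact hn x
    rw [h]
    refine continuous_matrix (fun i j => ?_)
    fin_cases i <;> fin_cases j
    · exact continuous_const
    · exact continuous_id
    · exact continuous_const
    · exact continuous_const
  · have h : (fun u : Adl K => (((n u)⁻¹ : G K) : Matrix (Fin 2) (Fin 2) (Adl K)))
        = fun u : Adl K => (!![1, -u; 0, 1] : Matrix (Fin 2) (Fin 2) (Adl K)) := by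
      funext x
      rw [hinv, hn]
    rw [h]
    refine continuous_matrix (fun i j => ?_)
    fin_cases i <;> fin_cases j
    · exact continuous_const
    · exact continuous_neg
    · exact continuous_const
    · exact continuous_const

/-- The terms of the constant term are integrable. -/
theorem integrableOn_unip362 (hT : Fermat.Agent.LT.T1.AddFundDomC K) {ψ : G K → ℂ}
    (hc : Continuous ψ) (hb : ∃ C : ℝ, ∀ g : G K, ‖ψ g‖ ≤ C) :
    letI : MeasurableSpace (Adl K) := borel (Adl K)
    ∀ μ : Measure (Adl K), μ.IsAddHaarMeasure → ∀ D : Set (Adl K),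
      IsAddFundamentalDomain ((algebraMap K (Adl K)).toAddMonoidHom.range) D μ →
      ∀ n : Adl K → G K,
        (∀ x : Adl K, (n x : Matrix (Fin 2) (Fin 2) (Adl K)) = !![1, x; 0, 1]) →
        ∀ g : G K, IntegrableOn (fun x => ψ (n x * g)) D μ := by
  letI : MeasurableSpace (Adl K) := borel (Adl K)
  intro μ hμ D hD n hn g
  have : BorelSpace (Adl K) := ⟨rfl⟩
  obtain ⟨C, hC⟩ := hb
  have hfin : μ D < ⊤ := fundDom_finite362 hT μ hμ D hD
  have hcont : Continuous (fun x => ψ (n x * g)) :=
    hc.comp ((continuous_unip362 n hn).mul continuous_const)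
  have : IsFiniteMeasure (μ.restrict D) := ⟨by simpa using hfin⟩
  exact Integrable.of_bound hcont.aestronglyMeasurable C
    (Filter.Eventually.of_forall fun x => hC _)

/-! ## 2. Finite linear combinations of cusp functions -/

theorem continuous_lin362 (s : Finset ℕ) (a : ℕ → ℂ) (e : ℕ → G K → ℂ)
    (he : ∀ j ∈ s, Continuous (e j)) : Continuous fun g => ∑ j ∈ s, a j * e j g :=
  continuous_finsetSum _ fun j hj => continuous_const.mul (he j hj)

theorem bdd_lin362 (s : Finset ℕ) (a : ℕ → ℂ) (e : ℕ → G K → ℂ)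
    (he : ∀ j ∈ s, ∃ C : ℝ, ∀ g : G K, ‖e j g‖ ≤ C) :
    ∃ C : ℝ, ∀ g : G K, ‖∑ j ∈ s, a j * e j g‖ ≤ C := by
  classical
  induction s using Finset.induction_on with
  | empty => exact ⟨0, fun g => by simp⟩
  | insert i s hi ih =>
    obtain ⟨C, hC⟩ := he i (Finset.mem_insert_self i s)
    obtain ⟨D, hD⟩ := ih fun j hj => he j (Finset.mem_insert_of_mem hj)
    refine ⟨‖a i‖ * C + D, fun g => ?_⟩
    rw [Finset.sum_insert hi]
    refine (norm_add_le _ _).trans (add_le_add ?_ (hD g))
    rw [norm_mul]
    exact mul_le_mul_of_nonneg_left (hC g) (norm_nonneg _)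

/-- **The cusp functions are stable under finite linear combinations.** -/
theorem isCuspFn_sum362 (hT : Fermat.Agent.LT.T1.AddFundDomC K) {𝔫 : Ideal (𝓞 K)}
    {τ : G K → ℂ} {r : G K} (e : ℕ → G K → ℂ) (he : ∀ j, IsCuspFn 𝔫 τ r (e j))
    (s : Finset ℕ) (a : ℕ → ℂ) : IsCuspFn 𝔫 τ r (fun g => ∑ j ∈ s, a j * e j g) := by
  refine ⟨continuous_lin362 s a e fun j _ => (he j).cont,
    bdd_lin362 s a e fun j _ => (he j).bdd, ⟨?_, ?_, ?_, ?_⟩, ?_⟩
  · intro γ g
    exact Finset.sum_congr rfl fun j _ => by rw [(he j).aut.left_inv]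
  · intro u hu g
    exact Finset.sum_congr rfl fun j _ => by rw [(he j).aut.level_inv u hu]
  · intro w k hk g
    show ∑ j ∈ s, a j * e j (g * k) = τ k * ∑ j ∈ s, a j * e j g
    rw [Finset.mul_sum]
    refine Finset.sum_congr rfl fun j _ => ?_
    rw [(he j).aut.arch_compact w k hk]
    ring
  · intro g
    exact Finset.sum_congr rfl fun j _ => by rw [(he j).aut.ray]
  · intro μ' hμ' D hD n hn g
    have hint := fun j => integrableOn_unip362 hT (he j).cont (he j).bdd μ' hμ' D hD n hn g
    show ∫ x in D, ∑ j ∈ s, a j * e j (n x * g) ∂μ' = 0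
    rw [integral_finsetSum _ fun j _ => (hint j).const_mul (a j)]
    refine Finset.sum_eq_zero fun j _ => ?_
    rw [integral_const_mul, (he j).cuspidal μ' hμ' D hD n hn g, mul_zero]

/-! ## 3. `R(σ)` and `R(φ)` on continuous bounded functions -/

/-- `σ⁻¹` is continuous on `GL₂(𝔸_K)`. -/
theorem continuous_onGinv362 (s : AdelicAut K) : Continuous s.onGinv := by
  unfold AdelicAut.onGinv Matrix.GeneralLinearGroup.map
  refine Continuous.units_map _ ?_
  exact Continuous.matrix_map continuous_id s.continuous_symm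

theorem continuous_rsig362 (s : AdelicAut K) {e : G K → ℂ} (he : Continuous e) :
    Continuous (Rsig s e) :=
  he.comp (continuous_onGinv362 s)

theorem bdd_rsig362 (s : AdelicAut K) {e : G K → ℂ} (he : ∃ C : ℝ, ∀ g : G K, ‖e g‖ ≤ C) :
    ∃ C : ℝ, ∀ g : G K, ‖Rsig s e g‖ ≤ C := by
  obtain ⟨C, hC⟩ := he
  exact ⟨C, fun g => hC _⟩

/-- The integrand of `R(φ) ψ` is integrable. -/
theorem integrable_rconv362 {μ : Measure (G K)} [IsFiniteMeasureOnCompacts μ]
    {φ ψ : G K → ℂ} (hφ : Continuous φ) (hsupp : HasCompactSupport φ) (hψ : Continuous ψ)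
    (x : G K) : Integrable (fun y => φ y * ψ (x * y)) μ := by
  have : BorelSpace (G K) := ⟨rfl⟩
  have hc : Continuous fun y => φ y * ψ (x * y) :=
    hφ.mul (hψ.comp (continuous_const.mul continuous_id))
  exact hc.integrable_of_hasCompactSupport hsupp.mul_right

/-- `R(φ) ψ` is continuous. -/
theorem continuous_rconv362 {μ : Measure (G K)} [IsFiniteMeasureOnCompacts μ]
    {φ ψ : G K → ℂ} (hφ : Continuous φ) (hsupp : HasCompactSupport φ) (hψ : Continuous ψ) :
    Continuous (Rconv μ φ ψ) := by
  have : BorelSpace (G K) := ⟨rfl⟩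
  rw [← continuousOn_univ]
  unfold Rconv
  refine continuousOn_integral_of_compact_support (f := fun x y => φ y * ψ (x * y))
    (k := tsupport φ) hsupp ?_ ?_
  · refine Continuous.continuousOn ?_
    show Continuous fun p : G K × G K => φ p.2 * ψ (p.1 * p.2)
    exact (hφ.comp continuous_snd).mul (hψ.comp (continuous_fst.mul continuous_snd))
  · intro x y _ hy
    show φ y * ψ (x * y) = 0
    rw [image_eq_zero_of_notMem_tsupport hy, zero_mul]

/-- `R(φ) ψ` is bounded. -/
theorem bdd_rconv362 {μ : Measure (G K)} [IsFiniteMeasureOnCompacts μ]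
    {φ ψ : G K → ℂ} (hφ : Continuous φ) (hsupp : HasCompactSupport φ)
    (hb : ∃ C : ℝ, ∀ g : G K, ‖ψ g‖ ≤ C) :
    ∃ C : ℝ, ∀ g : G K, ‖Rconv μ φ ψ g‖ ≤ C := by
  have : BorelSpace (G K) := ⟨rfl⟩
  obtain ⟨C, hC⟩ := hb
  have hint : Integrable (fun y => ‖φ y‖ * C) μ :=
    ((hφ.integrable_of_hasCompactSupport hsupp).norm).mul_const C
  refine ⟨∫ y, ‖φ y‖ * C ∂μ, fun x => ?_⟩
  unfold Rconv
  refine norm_integral_le_of_norm_le hint (Filter.Eventually.of_forall fun y => ?_)
  rw [norm_mul]
  exact mul_le_mul_of_nonneg_left (hC _) (norm_nonneg _)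

end Fermat.Agent.LT.T7.H362
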