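import Mathlib
import Fermat.Agent.LT.H556.A0
import Fermat.Agent.LT.T1.Spec
import Fermat.Agent.LT.T5.Spec
import Fermat.Agent.LT.T7.H44.Rebase
import Fermat.Agent.LT.T7.H362.ChangeLin

/-!
# Row LT, tower T7, leaf T7.L2.2.C `ChangeC561` (registry row 2189, helper362): the core

OFF-MAIN.  Imports Mathlib, A0, `T1/Spec.lean`, `T5/Spec.lean`, the asset `T7/H44/Rebase.lean`
of helper44 (registry row 2165, byte-identical copy) and `ChangeLin.lean`.  Complete proofs.

`changeCore362`: the statement of `T7.H561.ChangeC561` (unfolded) under the hypothesis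
`T1.AddFundDomC K` (closed: tower T1).

## Proof

The blocks `idx i · ` and the singletons `{k}` (for `k` outside the blocks) form a partition of
`ℕ` into finite blocks (`blk362`); the matrix `A k j = (Q i)_{ba}` for `k = idx i a`,
`j = idx i b` and `A k k = 1` outside the blocks (`mat362`) has orthonormal rows on every block
(`Qᴴ Q = 1`).  So `isCuspONB_rebase44` and `diagCoeff_rebase44` (helper44) apply, with the
analytic inputs of `ChangeLin.lean`.
-/

set_option autoImplicit false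

open IsDedekindDomain NumberField MeasureTheory
open scoped ComplexConjugate

noncomputable section

namespace Fermat.Agent.LT.T7.H362

open Fermat.Agent.LT.H556.A0 Fermat.Agent.LT.T5 Fermat.Agent.LT.T7.H44

attribute [local instance] Fermat.Agent.LT.T5.instMeasurableSpaceG

/-! ## 1. The blocks and the matrix -/

section Blocks

variable {ι : Type} {n : ι → ℕ} (idx : (i : ι) → Fin (n i) → ℕ)

open Classical in
/-- The block of `k`: the block `idx i ·` which contains `k`, or `{k}`. -/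
def blk362 (k : ℕ) : Finset ℕ :=
  if h : ∃ i : ι, ∃ a : Fin (n i), idx i a = k then Finset.univ.image (idx h.choose) else {k}

open Classical in
/-- The matrix: `A (idx i a) (idx i b) = (Q i)_{ba}`, the identity outside the blocks. -/
def mat362 (Q : (i : ι) → Matrix (Fin (n i)) (Fin (n i)) ℂ) (k j : ℕ) : ℂ :=
  if h : ∃ i : ι, ∃ a b : Fin (n i), idx i a = k ∧ idx i b = j then
    Q h.choose h.choose_spec.choose_spec.choose h.choose_spec.choose
  else if k = j then 1 else 0

variable {idx}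

theorem idx_inj362
    (hinj : ∀ (i : ι) (a : Fin (n i)) (i' : ι) (a' : Fin (n i')), idx i a = idx i' a' →
      (⟨i, a⟩ : Σ i, Fin (n i)) = ⟨i', a'⟩) (i : ι) : Function.Injective (idx i) := by
  intro a a' h
  have := hinj i a i a' h
  exact eq_of_heq (Sigma.mk.inj this).2

theorem blk_idx362
    (hinj : ∀ (i : ι) (a : Fin (n i)) (i' : ι) (a' : Fin (n i')), idx i a = idx i' a' →
      (⟨i, a⟩ : Σ i, Fin (n i)) = ⟨i', a'⟩) (i : ι) (a : Fin (n i)) :
    blk362 idx (idx i a) = Finset.univ.image (idx i) := by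
  have key : ∀ i' : ι, (∃ a' : Fin (n i'), idx i' a' = idx i a) →
      Finset.univ.image (idx i') = Finset.univ.image (idx i) := by
    rintro i' ⟨a', ha'⟩
    obtain rfl : i' = i := (Sigma.mk.inj (hinj i' a' i a ha')).1
    rfl
  have h : ∃ i' : ι, ∃ a' : Fin (n i'), idx i' a' = idx i a := ⟨i, a, rfl⟩
  unfold blk362
  rw [dif_pos h]
  exact key _ h.choose_spec

theorem blk_not362 {k : ℕ} (hk : ∀ (i : ι) (a : Fin (n i)), idx i a ≠ k) :
    blk362 idx k = {k} := by
  unfold blk362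
  rw [dif_neg]
  rintro ⟨i, a, h⟩
  exact hk i a h

theorem mat_idx362
    (hinj : ∀ (i : ι) (a : Fin (n i)) (i' : ι) (a' : Fin (n i')), idx i a = idx i' a' →
      (⟨i, a⟩ : Σ i, Fin (n i)) = ⟨i', a'⟩)
    (Q : (i : ι) → Matrix (Fin (n i)) (Fin (n i)) ℂ) (i : ι) (a b : Fin (n i)) :
    mat362 idx Q (idx i a) (idx i b) = Q i b a := by
  have key : ∀ (i' : ι) (a' b' : Fin (n i')), idx i' a' = idx i a → idx i' b' = idx i b →
      Q i' b' a' = Q i b a := by
    intro i' a' b' ha' hb'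
    obtain rfl : i' = i := (Sigma.mk.inj (hinj i' a' i a ha')).1
    rw [idx_inj362 hinj i' ha', idx_inj362 hinj i' hb']
  have h : ∃ i' : ι, ∃ a' b' : Fin (n i'), idx i' a' = idx i a ∧ idx i' b' = idx i b :=
    ⟨i, a, b, rfl, rfl⟩
  unfold mat362
  rw [dif_pos h]
  exact key _ _ _ h.choose_spec.choose_spec.choose_spec.1
    h.choose_spec.choose_spec.choose_spec.2

theorem mat_not362 (Q : (i : ι) → Matrix (Fin (n i)) (Fin (n i)) ℂ) {k : ℕ}
    (hk : ∀ (i : ι) (a : Fin (n i)), idx i a ≠ k) : mat362 idx Q k k = 1 := by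
  unfold mat362
  rw [dif_neg, if_pos rfl]
  rintro ⟨i, a, b, h, -⟩
  exact hk i a h

theorem isBlocks362
    (hinj : ∀ (i : ι) (a : Fin (n i)) (i' : ι) (a' : Fin (n i')), idx i a = idx i' a' →
      (⟨i, a⟩ : Σ i, Fin (n i)) = ⟨i', a'⟩) : IsBlocks44 (blk362 idx) where
  self := by
    intro k
    by_cases h : ∃ i : ι, ∃ a : Fin (n i), idx i a = k
    · obtain ⟨i, a, rfl⟩ := h
      rw [blk_idx362 hinj]
      exact Finset.mem_image_of_mem _ (Finset.mem_univ a)
    · rw [blk_not362 fun i a hia => h ⟨i, a, hia⟩]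
      exact Finset.mem_singleton_self k
  eq := by
    intro k j hj
    by_cases h : ∃ i : ι, ∃ a : Fin (n i), idx i a = k
    · obtain ⟨i, a, rfl⟩ := h
      rw [blk_idx362 hinj] at hj ⊢
      obtain ⟨b, -, rfl⟩ := Finset.mem_image.1 hj
      exact blk_idx362 hinj i b
    · rw [blk_not362 fun i a hia => h ⟨i, a, hia⟩, Finset.mem_singleton] at hj
      rw [hj]

/-- The columns of a unitary matrix are orthonormal. -/
theorem unitary_col362 {m : ℕ} {Q : Matrix (Fin m) (Fin m) ℂ}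
    (hQ : Q ∈ Matrix.unitaryGroup (Fin m) ℂ) (a a' : Fin m) :
    ∑ b, Q b a * conj (Q b a') = if a = a' then 1 else 0 := by
  have h := Matrix.mem_unitaryGroup_iff'.1 hQ
  have h1 := congrFun (congrFun h a') a
  rw [Matrix.mul_apply, Matrix.one_apply] at h1
  simp only [Matrix.star_apply, Complex.star_def] at h1
  have h2 : ∑ b, Q b a * conj (Q b a') = ∑ b, conj (Q b a') * Q b a :=
    Finset.sum_congr rfl fun b _ => mul_comm _ _
  rw [h2, h1]
  by_cases haa : a = a'
  · rw [if_pos haa, if_pos haa.symm]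
  · rw [if_neg haa, if_neg (Ne.symm haa)]

end Blocks

/-! ## 2. The core -/

variable {K : Type} [Field K] [NumberField K]

theorem isRebase362 {μ : Measure (G K)} {F : Set (G K)} {e₀ : ℕ → G K → ℂ}
    {ι : Type} {n : ι → ℕ} {idx : (i : ι) → Fin (n i) → ℕ}
    (hinj : ∀ (i : ι) (a : Fin (n i)) (i' : ι) (a' : Fin (n i')), idx i a = idx i' a' →
      (⟨i, a⟩ : Σ i, Fin (n i)) = ⟨i', a'⟩)
    (hnorm : ∀ (i : ι) (a : Fin (n i)), innerD μ F (e₀ (idx i a)) (e₀ (idx i a)) = 1)
    {Q : (i : ι) → Matrix (Fin (n i)) (Fin (n i)) ℂ}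
    (hQ : ∀ i, Q i ∈ Matrix.unitaryGroup (Fin (n i)) ℂ) :
    IsRebase44 μ F e₀ (blk362 idx) (mat362 idx Q) where
  blocks := isBlocks362 hinj
  row := by
    intro k k' hk'
    by_cases h : ∃ i : ι, ∃ a : Fin (n i), idx i a = k
    · obtain ⟨i, a, rfl⟩ := h
      rw [blk_idx362 hinj] at hk' ⊢
      obtain ⟨a', -, rfl⟩ := Finset.mem_image.1 hk'
      rw [Finset.sum_image fun b _ b' _ hbb => idx_inj362 hinj i hbb]
      have e1 : ∀ b : Fin (n i),
          mat362 idx Q (idx i a) (idx i b) * conj (mat362 idx Q (idx i a') (idx i b))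
            = Q i b a * conj (Q i b a') := by
        intro b
        rw [mat_idx362 hinj, mat_idx362 hinj]
      rw [Finset.sum_congr rfl fun b _ => e1 b, unitary_col362 (hQ i) a a']
      by_cases haa : a = a'
      · rw [if_pos haa, if_pos (by rw [haa])]
      · rw [if_neg haa, if_neg fun hh => haa (idx_inj362 hinj i hh)]
    · have hk : ∀ (i : ι) (a : Fin (n i)), idx i a ≠ k := fun i a hia => h ⟨i, a, hia⟩
      rw [blk_not362 hk, Finset.mem_singleton] at hk'
      rw [blk_not362 hk, Finset.sum_singleton, hk', if_pos rfl]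
      rw [mat_not362 Q hk, map_one, mul_one]
  zero := by
    intro k hk1
    have hk : ∀ (i : ι) (a : Fin (n i)), idx i a ≠ k := by
      rintro i a rfl
      exact hk1 (hnorm i a)
    exact ⟨blk_not362 hk, mat_not362 Q hk⟩

/-- **The core of `ChangeC561`** (statement unfolded), from `T1.AddFundDomC K`. -/
theorem changeCore362 (hT : Fermat.Agent.LT.T1.AddFundDomC K)
    (s : AdelicAut K) (𝔫 : Ideal (𝓞 K)) (μ : Measure (G K)) (F : Set (G K)) (r : G K)
    (hF : IsFrame μ F) (e₀ : ℕ → G K → ℂ) (he : IsCuspONB 𝔫 trivType r μ F e₀)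
    (ι : Type) (n : ι → ℕ) (idx : (i : ι) → Fin (n i) → ℕ)
    (hinj : ∀ (i : ι) (a : Fin (n i)) (i' : ι) (a' : Fin (n i')), idx i a = idx i' a' →
      (⟨i, a⟩ : Σ i, Fin (n i)) = ⟨i', a'⟩)
    (hnorm : ∀ (i : ι) (a : Fin (n i)), innerD μ F (e₀ (idx i a)) (e₀ (idx i a)) = 1)
    (Q : (i : ι) → Matrix (Fin (n i)) (Fin (n i)) ℂ)
    (hQ : ∀ i, Q i ∈ Matrix.unitaryGroup (Fin (n i)) ℂ) :
    ∃ e' : ℕ → G K → ℂ, IsCuspONB 𝔫 trivType r μ F e' ∧
      (∀ k : ℕ, (∀ (i : ι) (a : Fin (n i)), idx i a ≠ k) → e' k = e₀ k) ∧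
      (∀ (i : ι) (a : Fin (n i)), e' (idx i a) = fun x => ∑ b, Q i b a * e₀ (idx i b) x) ∧
      ∀ φ : G K → ℂ, IsTestFn 𝔫 trivType φ → ∀ (i : ι) (a : Fin (n i)),
        diagCoeff s μ F φ (e' (idx i a))
          = ∑ b, ∑ c, conj (Q i c a)
              * innerD μ F (Rconv μ φ (Rsig s (e₀ (idx i b)))) (e₀ (idx i c))
              * Q i b a := by
  have hhaar : μ.IsHaarMeasure := hF.haar
  have hreb := isRebase362 (e₀ := e₀) hinj hnorm hQ
  have hlin : ∀ (t : Finset ℕ) (a : ℕ → ℂ),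
      IsCuspFn 𝔫 trivType r (fun g => ∑ j ∈ t, a j * e₀ j g) :=
    fun t a => isCuspFn_sum362 hT e₀ he.cusp t a
  refine ⟨rebase44 (blk362 idx) (mat362 idx Q) e₀, isCuspONB_rebase44 hF he hreb hlin,
    ?_, ?_, ?_⟩
  · intro k hk
    funext g
    show ∑ j ∈ blk362 idx k, mat362 idx Q k j * e₀ j g = e₀ k g
    rw [blk_not362 hk, Finset.sum_singleton, mat_not362 Q hk, one_mul]
  · intro i a
    funext g
    show ∑ j ∈ blk362 idx (idx i a), mat362 idx Q (idx i a) j * e₀ j g
      = ∑ b, Q i b a * e₀ (idx i b) g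
    rw [blk_idx362 hinj, Finset.sum_image fun b _ b' _ hbb => idx_inj362 hinj i hbb]
    exact Finset.sum_congr rfl fun b _ => by rw [mat_idx362 hinj]
  · intro φ hφ i a
    have hc : ∀ j, Continuous (Rsig s (e₀ j)) := fun j => continuous_rsig362 s (he.cusp j).cont
    have hb : ∀ j, ∃ C : ℝ, ∀ g : G K, ‖Rsig s (e₀ j) g‖ ≤ C :=
      fun j => bdd_rsig362 s (he.cusp j).bdd
    rw [diagCoeff_rebase44 hF he s φ (idx i a)
      (fun j _ x => integrable_rconv362 hφ.cont hφ.supp (hc j) x)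
      (fun j _ => ⟨continuous_rconv362 hφ.cont hφ.supp (hc j),
        bdd_rconv362 hφ.cont hφ.supp (hb j)⟩)]
    rw [blk_idx362 hinj, Finset.sum_image fun b _ b' _ hbb => idx_inj362 hinj i hbb]
    refine Finset.sum_congr rfl fun b _ => ?_
    rw [Finset.sum_image fun b _ b' _ hbb => idx_inj362 hinj i hbb]
    refine Finset.sum_congr rfl fun c _ => ?_
    rw [mat_idx362 hinj, mat_idx362 hinj]
    ring

end Fermat.Agent.LT.T7.H362
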