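import Mathlib
import Fermat.Agent.LT.T1.Spec
import Fermat.Agent.LT.T7.H561.SpecUpSpec
import Fermat.Agent.LT.T7.H362.ChangeCore

/-!
# Row LT, tower T7, leaf T7.L2.2.C `ChangeC561` (registry row 2189, helper362)

OFF-MAIN.  `changeC_of362 K' : T1.AddFundDomC K' → T7.H561.ChangeC561 K'`, the Prop of
`LT/T7/H561/SpecUpSpec.lean` (helper561) VERBATIM, and
`changeC_of_T1Out362 K' : T1.T1Out K' → T7.H561.ChangeC561 K'`.
The hypothesis is closed (tower T1, `T1.t1Out` of helper54): see `ChangeClosed.lean`.

Proof: `ChangeCore.lean` (rebasing along finite blocks, asset `T7/H44/Rebase.lean` of helper44,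
with the analytic inputs of `ChangeLin.lean`).
-/

set_option autoImplicit false

open IsDedekindDomain NumberField MeasureTheory
open scoped ComplexConjugate

noncomputable section

namespace Fermat.Agent.LT.T7.H362

open Fermat.Agent.LT.H556.A0

attribute [local instance] Fermat.Agent.LT.T5.instMeasurableSpaceG

/-- **LEAF T7.L2.2.C = CHANGE**, from the finiteness of the measure of a fundamental domain of
`K'` in the adeles (`T1.AddFundDomC`, closed). -/
theorem changeC_of362 (K' : Type) [Field K'] [NumberField K']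
    (hT : Fermat.Agent.LT.T1.AddFundDomC K') : Fermat.Agent.LT.T7.H561.ChangeC561 K' := by
  intro s 𝔫 μ F r hF _ _ e₀ he ι n idx hinj hnorm Q hQ
  exact changeCore362 hT s 𝔫 μ F r hF e₀ he ι n idx hinj hnorm Q hQ

/-- **LEAF T7.L2.2.C = CHANGE**, from the output of tower T1. -/
theorem changeC_of_T1Out362 (K' : Type) [Field K'] [NumberField K']
    (hT : Fermat.Agent.LT.T1.T1Out K') : Fermat.Agent.LT.T7.H561.ChangeC561 K' :=
  changeC_of362 K' hT.addFundDom

end Fermat.Agent.LT.T7.H362
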