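import Mathlib
import Fermat.Agent.LT.T1.Spec
import Fermat.Agent.LT.H767.AdeleDiscrete
import Fermat.Agent.LT.T1.H11.LocComp
import Fermat.Agent.LT.T1.H767.AdeleLattice
import Fermat.Agent.LT.T1.H848.AddFundDom
import Fermat.Agent.LT.T7.H362.Change

/-!
# Row LT, tower T7, leaf T7.L2.2.C `ChangeC561` (registry row 2189, helper362): CLOSED

OFF-MAIN.  `changeC362 K' : T7.H561.ChangeC561 K'`, UNCONDITIONAL, the Prop of
`LT/T7/H561/SpecUpSpec.lean` (helper561) VERBATIM.

The hypothesis `T1.AddFundDomC K'` of `changeC_of362` is discharged by the closed leaves of tower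
T1 (byte-identical copies from helper54@272e43fd2): T1.01 `locCompC_h11` (helper11), T1.02
`discreteTopology_principal` (helper767), T1.03 `leafAdeleCocompact767` (helper767), T1.04
`leafAddFundDom848` (helper848).  Only these four leaves are imported (11 files), not the whole
of `T1/Closed.lean`.
-/

set_option autoImplicit false

open IsDedekindDomain NumberField MeasureTheory

noncomputable section

namespace Fermat.Agent.LT.T7.H362

open Fermat.Agent.LT.H556.A0

/-- `T1.AddFundDomC`, closed (leaves T1.01 -- T1.04). -/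
theorem addFundDomC362 (K : Type) [Field K] [NumberField K] :
    Fermat.Agent.LT.T1.AddFundDomC K := by
  have hLC : Fermat.Agent.LT.T1.LocCompC K := Fermat.Agent.LT.T1.H11.locCompC_h11 K
  have hD : Fermat.Agent.LT.T1.LeafAdeleDiscrete K := by
    unfold Fermat.Agent.LT.T1.LeafAdeleDiscrete
    have e : Fermat.Agent.LT.T1.princ K = AdeleRing.principalSubgroup (𝓞 K) K := by
      ext x
      simp [Fermat.Agent.LT.T1.princ, AdeleRing.principalSubgroup]
    rw [e]
    exact Fermat.Agent.LT.H767.discreteTopology_principal K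
  have hAL : Fermat.Agent.LT.T1.AdeleLatticeC K :=
    Fermat.Agent.LT.T1.adeleLattice_of_leaves K hLC hD
      (Fermat.Agent.LT.H767.leafAdeleCocompact767 K)
  exact Fermat.Agent.LT.T1.H848.leafAddFundDom848 K hLC hAL

/-- **LEAF T7.L2.2.C = CHANGE, UNCONDITIONAL.** -/
theorem changeC362 (K' : Type) [Field K'] [NumberField K'] :
    Fermat.Agent.LT.T7.H561.ChangeC561 K' :=
  changeC_of362 K' (addFundDomC362 K')

end Fermat.Agent.LT.T7.H362
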